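import Fermat.Agent.LT.T7.H193.KillSpec

/-!
# Row LT, tower T7, node T7.L2.1 `SupplyC`, sub-station NATURAL, leaf NAT.7 `NatAbsorbC`
# (helper117), OFF-MAIN

    natAbsorbC117 (K) : H193.NatAbsorbC K

`φ♮` absorbs the positive scalars: by `NatOpC`, `R(φ♮) (e(· z)) = R(φ) (P_∞ (e(· z)))`; a
positive scalar at infinity is `z = a s` (an element of `GL₂(𝔸_K)` is determined by its
components, `ext_G117`), and `P_∞ (e(· a s)) = P_∞ e` (`IsTorusData.mean`).
Nothing is assumed beyond the hypotheses of the Prop.
-/

set_option autoImplicit false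
set_option linter.unusedSectionVars false
set_option linter.style.haveILetI false

open IsDedekindDomain NumberField MeasureTheory

noncomputable section

namespace Fermat.Agent.LT.T7.H117

open Fermat.Agent.LT.H556 Fermat.Agent.LT.H556.A0 Fermat.Agent.LT Fermat.Agent.LT.T7.H193

attribute [local instance] Fermat.Agent.LT.T5.instMeasurableSpaceG

variable {K : Type} [Field K] [NumberField K]

/-- An element of `GL₂(𝔸_K)` is determined by its components. -/
theorem ext_G117 {g h : G K} (hinf : ∀ w : InfinitePlace K, infComp w g = infComp w h)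
    (hfin : ∀ v : HeightOneSpectrum (𝓞 K), finComp v g = finComp v h) : g = h := by
  apply Units.ext
  apply Matrix.ext
  intro i j
  refine Prod.ext ?_ ?_
  · funext w
    have := congrFun (congrFun (hinf w) i) j
    exact (InfinitePlace.Completion.extensionEmbedding w).injective this
  · apply IsDedekindDomain.FiniteAdeleRing.ext
    intro v
    exact congrFun (congrFun (hfin v) i) j

/-- A positive scalar at infinity is a member of the torus family. -/
theorem eq_torus_of_isPosInf117 {𝔑 : Ideal (𝓞 K)} {r : G K}
    {a : (InfinitePlace K → ℝ) → G K} {D : Set (InfinitePlace K → ℝ)}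
    (hD : IsTorusData 𝔑 r a D) {z : G K} (hz : IsPosInf z) :
    ∃ s : InfinitePlace K → ℝ, z = a s := by
  choose ρ hρ using hz.2
  refine ⟨fun w => Real.log (ρ w), ext_G117 (fun w => ?_) (fun v => ?_)⟩
  · rw [(hρ w).2, hD.inf, Real.exp_log (hρ w).1]
  · have h1 : finComp v z = 1 := hz.1 v
    have h2 : finComp v (a fun w => Real.log (ρ w)) = 1 := hD.fin _ v
    rw [h1, h2]

/-- **Leaf NAT.7 `NatAbsorbC`.** -/
theorem natAbsorbC117 (K : Type) [Field K] [NumberField K] : NatAbsorbC K := by
  intro hT1 hOp R hR 𝔑 a D hD φ hφc hφs z hz e he x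
  have hez : Continuous (fun y : G K => e (y * z)) :=
    he.cont.comp (continuous_id.mul continuous_const)
  rw [hOp hT1 R hR 𝔑 R.r a D hD φ hφc hφs _ hez x,
    hOp hT1 R hR 𝔑 R.r a D hD φ hφc hφs e he.cont x]
  obtain ⟨s, rfl⟩ := eq_torus_of_isPosInf117 hD hz
  have hfix : torAvg a D (fun y : G K => e (y * a s)) = torAvg a D e := by
    funext g
    unfold torAvg
    congr 1
    have h := hD.mean e he.aut he.cont g s
    simp_rw [hD.mul, ← mul_assoc] at h
    exact h
  rw [hfix]

end Fermat.Agent.LT.T7.H117

end
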