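import Mathlib
import Fermat.Agent.LT.T7.H305.MatchCut
import Fermat.Agent.LT.T3.H57.ROpEmb
import Fermat.Agent.LT.H11.SC

/-!
# Row LT, tower T7, leaf C2.7.4 `HaarSplitC305` (helper117, OFF-MAIN): the group theory

* components `finGL305`, `infGL305`: continuity, integrality;
* `outSub117 S` : the subgroup `Out_S = {y : y_v ∈ GL₂(𝒪_v), v ∉ S}`, open;
* `isOpen_inU117` : `U(n)` is open in `GL₂(K_v)`;
* `compHom117 S` : the homomorphism `y ↦ (y_v)_{v ∈ S ∪ S_∞}`, continuous, ONTO from `Out_S`
  (`K` totally complex), with kernel in `Out_S` contained in the standard compact subgroup.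
-/

set_option autoImplicit false

open IsDedekindDomain NumberField MeasureTheory Set Topology
open scoped NNReal ENNReal

noncomputable section

namespace Fermat.Agent.LT.T7.H117

open Fermat.Agent.LT.H556 Fermat.Agent.LT.H556.A0 Fermat.Agent.LT.T7 Fermat.Agent.LT.T7.H305

variable {K : Type} [Field K] [NumberField K]

/-! ## 1. Components -/

theorem finGL_val117 (v : HeightOneSpectrum (𝓞 K)) (g : G K) :
    ((finGL305 v g : GL (Fin 2) (v.adicCompletion K)) :
      Matrix (Fin 2) (Fin 2) (v.adicCompletion K)) = finComp v g := rfl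

theorem finGL_inv_val117 (v : HeightOneSpectrum (𝓞 K)) (g : G K) :
    (((finGL305 v g)⁻¹ : GL (Fin 2) (v.adicCompletion K)) :
      Matrix (Fin 2) (Fin 2) (v.adicCompletion K)) = finComp v g⁻¹ := by
  rw [← map_inv]; rfl

theorem infGL_val117 (w : InfinitePlace K) (g : G K) :
    ((infGL305 w g : GL (Fin 2) ℂ) : Matrix (Fin 2) (Fin 2) ℂ) = infComp w g := rfl

theorem finGL_eq117 (v : HeightOneSpectrum (𝓞 K)) :
    (finGL305 v : G K →* GL (Fin 2) (v.adicCompletion K)) = T3.AS.finGL K v := rfl

theorem infGL_eq117 (w : InfinitePlace K) :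
    (infGL305 w : G K →* GL (Fin 2) ℂ) = T3.AS.infGL K w := rfl

theorem continuous_finGL117 (v : HeightOneSpectrum (𝓞 K)) :
    Continuous (finGL305 (K := K) v) := by
  refine Continuous.units_map _ ?_
  refine Continuous.matrix_map continuous_id ?_
  have h : Continuous (fun x : InfiniteAdeleRing K × FiniteAdeleRing (𝓞 K) K => x.2 v) :=
    (RestrictedProduct.continuous_eval v).comp continuous_snd
  exact h

theorem continuous_infGL117 (w : InfinitePlace K) :
    Continuous (infGL305 (K := K) w) := by
  refine Continuous.units_map _ ?_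
  refine Continuous.matrix_map continuous_id ?_
  have h : Continuous (fun x : InfiniteAdeleRing K × FiniteAdeleRing (𝓞 K) K =>
      InfinitePlace.Completion.extensionEmbedding w (x.1 w)) :=
    (InfinitePlace.Completion.isometry_extensionEmbedding w).continuous.comp
      ((continuous_apply w).comp continuous_fst)
  exact h

/-! ## 2. Integrality -/

theorem one_entry_mem117 (v : HeightOneSpectrum (𝓞 K)) (i j : Fin 2) :
    (1 : Matrix (Fin 2) (Fin 2) (v.adicCompletion K)) i j ∈ v.adicCompletionIntegers K := by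
  rw [Matrix.one_apply]
  split_ifs
  · exact one_mem _
  · exact zero_mem _

theorem isIntegralAt_of_eq_one117 (v : HeightOneSpectrum (𝓞 K)) (g : G K)
    (h : finGL305 v g = 1) : IsIntegralAt v g := by
  intro i j
  have h1 : finComp v g = 1 := by
    rw [← finGL_val117, h, Units.val_one]
  rw [h1]
  exact one_entry_mem117 v i j

theorem isIntegralAt_one117 (v : HeightOneSpectrum (𝓞 K)) : IsIntegralAt v (1 : G K) :=
  isIntegralAt_of_eq_one117 v 1 (map_one _)

theorem isIntegralAt_mul117 (v : HeightOneSpectrum (𝓞 K)) (a b : G K)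
    (ha : IsIntegralAt v a) (hb : IsIntegralAt v b) : IsIntegralAt v (a * b) := by
  intro i j
  have h : finComp v (a * b) = finComp v a * finComp v b := by
    rw [← finGL_val117, map_mul, Units.val_mul]
    rfl
  rw [h, Matrix.mul_apply]
  exact sum_mem fun k _ => mul_mem (ha i k) (hb k j)

theorem inU_zero_iff117 (v : HeightOneSpectrum (𝓞 K)) (y : G K) :
    T6.InU 0 (finGL305 v y) ↔ IsIntegralAt v y ∧ IsIntegralAt v y⁻¹ := by
  have hexp : WithZero.exp (-((0 : ℕ) : ℤ)) = (1 : WithZero (Multiplicative ℤ)) := by simp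
  have key : ∀ (x : v.adicCompletion K) (i j : Fin 2),
      Valued.v (x - (1 : Matrix (Fin 2) (Fin 2) (v.adicCompletion K)) i j)
          ≤ WithZero.exp (-((0 : ℕ) : ℤ)) ↔ x ∈ v.adicCompletionIntegers K := by
    intro x i j
    rw [hexp, ← HeightOneSpectrum.mem_adicCompletionIntegers]
    constructor
    · intro h
      have := add_mem h (one_entry_mem117 v i j)
      simpa using this
    · intro h
      exact sub_mem h (one_entry_mem117 v i j)
  constructor
  · intro h
    refine ⟨fun i j => ?_, fun i j => ?_⟩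
    · have := (key _ i j).1 (h i j).1
      rwa [finGL_val117] at this
    · have := (key _ i j).1 (h i j).2
      rwa [finGL_inv_val117] at this
  · rintro ⟨h1, h2⟩ i j
    refine ⟨(key _ i j).2 ?_, (key _ i j).2 ?_⟩
    · rw [finGL_val117]; exact h1 i j
    · rw [finGL_inv_val117]; exact h2 i j

/-! ## 3. The subgroup `Out_S` -/

/-- The subgroup `Out_S = {y : y_v ∈ GL₂(𝒪_v) for v ∉ S}`. -/
def outSub117 (S : Finset (HeightOneSpectrum (𝓞 K))) : Subgroup (G K) where
  carrier := {y | OutT305 S y}
  mul_mem' := by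
    intro a b ha hb v hv
    refine ⟨isIntegralAt_mul117 v a b (ha v hv).1 (hb v hv).1, ?_⟩
    rw [mul_inv_rev]
    exact isIntegralAt_mul117 v _ _ (hb v hv).2 (ha v hv).2
  one_mem' := fun v _ => ⟨isIntegralAt_one117 v, by rw [inv_one]; exact isIntegralAt_one117 v⟩
  inv_mem' := by
    intro a ha v hv
    refine ⟨(ha v hv).2, ?_⟩
    rw [inv_inv]
    exact (ha v hv).1

theorem mem_outSub117 (S : Finset (HeightOneSpectrum (𝓞 K))) (y : G K) :
    y ∈ outSub117 S ↔ OutT305 S y := Iff.rfl

theorem coe_outSub117 (S : Finset (HeightOneSpectrum (𝓞 K))) :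
    ((outSub117 S : Subgroup (G K)) : Set (G K)) = {y | OutT305 S y} := rfl

theorem isOpen_outSub117 (S : Finset (HeightOneSpectrum (𝓞 K))) :
    IsOpen ((outSub117 S : Subgroup (G K)) : Set (G K)) := by
  refine Subgroup.isOpen_of_mem_nhds (outSub117 S) (g := 1) ?_
  have h0 : IsOpen {a : FiniteAdeleRing (𝓞 K) K |
      ∀ v : HeightOneSpectrum (𝓞 K), a v ∈ v.adicCompletionIntegers K} :=
    RestrictedProduct.isOpen_forall_mem
      (R := fun v : HeightOneSpectrum (𝓞 K) => v.adicCompletion K)
      (A := fun v => (v.adicCompletionIntegers K : Set (v.adicCompletion K)))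
      (fun _ => Valued.isOpen_valuationSubring _)
  have hA : IsOpen {x : Adl K |
      ∀ v : HeightOneSpectrum (𝓞 K), x.2 v ∈ v.adicCompletionIntegers K} :=
    h0.preimage continuous_snd
  have hopen : IsOpen (⋂ i : Fin 2, ⋂ j : Fin 2,
      ((fun g : G K => (g : Matrix (Fin 2) (Fin 2) (Adl K)) i j) ⁻¹'
          {x : Adl K | ∀ v : HeightOneSpectrum (𝓞 K), x.2 v ∈ v.adicCompletionIntegers K}) ∩
        ((fun g : G K => ((g⁻¹ : G K) : Matrix (Fin 2) (Fin 2) (Adl K)) i j) ⁻¹'
          {x : Adl K | ∀ v : HeightOneSpectrum (𝓞 K), x.2 v ∈ v.adicCompletionIntegers K})) :=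
    isOpen_iInter_of_finite fun i => isOpen_iInter_of_finite fun j =>
      (hA.preimage (T1.H793.continuous_entry793 i j)).inter
        (hA.preimage (T1.H793.continuous_entry_inv793 i j))
  refine Filter.mem_of_superset (hopen.mem_nhds ?_) ?_
  · simp only [mem_iInter, mem_inter_iff, mem_preimage, mem_ofPred_eq]
    intro i j
    refine ⟨fun v => isIntegralAt_one117 v i j, fun v => ?_⟩
    have := isIntegralAt_one117 (K := K) v i j
    rw [inv_one]
    exact this
  · intro y hy v _
    simp only [mem_iInter, mem_inter_iff, mem_preimage, mem_ofPred_eq] at hy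
    exact ⟨fun i j => (hy i j).1 v, fun i j => (hy i j).2 v⟩

/-! ## 4. `U(n)` is open -/

theorem isOpen_valLe117 (v : HeightOneSpectrum (𝓞 K)) (n : ℕ) :
    IsOpen {x : v.adicCompletion K | Valued.v x ≤ WithZero.exp (-(n : ℤ))} := by
  obtain ⟨π, hπ⟩ := v.valuation_exists_uniformizer K
  set z : v.adicCompletion K := ((π : K) : v.adicCompletion K) ^ n with hz
  have hvz : Valued.v z = WithZero.exp (-(n : ℤ)) := by
    rw [hz, map_pow, HeightOneSpectrum.valuedAdicCompletion_eq_valuation', hπ,
      ← WithZero.exp_nsmul]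
    simp
  let A : AddSubgroup (v.adicCompletion K) :=
    { carrier := {x | Valued.v x ≤ WithZero.exp (-(n : ℤ))}
      add_mem' := fun {a b} ha hb => (Valued.v.map_add a b).trans (max_le ha hb)
      zero_mem' := by simp
      neg_mem' := fun {a} ha => by
        simp only [mem_ofPred_eq, Valuation.map_neg] at ha ⊢
        exact ha }
  have hA : IsOpen (A : Set (v.adicCompletion K)) := by
    refine AddSubgroup.isOpen_of_mem_nhds A (g := 0) ?_
    rw [Valued.mem_nhds_zero]
    have hz0 : Valued.v.restrict z ≠ 0 := by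
      intro h0
      have h1 : Valued.v z = 0 := by
        rw [← Valuation.embedding_restrict, h0, map_zero]
      rw [hvz] at h1
      exact WithZero.exp_ne_zero h1
    refine ⟨Units.mk0 (Valued.v.restrict z) hz0, fun x hx => ?_⟩
    have hx' : Valued.v.restrict x < Valued.v.restrict z := hx
    rw [Valuation.restrict_lt_iff, hvz] at hx'
    exact hx'.le
  exact hA

theorem isOpen_inU117 (v : HeightOneSpectrum (𝓞 K)) (n : ℕ) :
    IsOpen {g : GL (Fin 2) (v.adicCompletion K) | T6.InU n g} := by
  have hset : {g : GL (Fin 2) (v.adicCompletion K) | T6.InU n g}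
      = ⋂ i : Fin 2, ⋂ j : Fin 2,
        ((fun g : GL (Fin 2) (v.adicCompletion K) =>
            (g : Matrix (Fin 2) (Fin 2) (v.adicCompletion K)) i j
              - (1 : Matrix (Fin 2) (Fin 2) (v.adicCompletion K)) i j) ⁻¹'
          {x : v.adicCompletion K | Valued.v x ≤ WithZero.exp (-(n : ℤ))}) ∩
        ((fun g : GL (Fin 2) (v.adicCompletion K) =>
            ((g⁻¹ : GL (Fin 2) (v.adicCompletion K)) :
              Matrix (Fin 2) (Fin 2) (v.adicCompletion K)) i j
              - (1 : Matrix (Fin 2) (Fin 2) (v.adicCompletion K)) i j) ⁻¹'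
          {x : v.adicCompletion K | Valued.v x ≤ WithZero.exp (-(n : ℤ))}) := by
    ext g
    simp only [mem_iInter, mem_inter_iff, mem_preimage, mem_ofPred_eq]
    exact Iff.rfl
  rw [hset]
  refine isOpen_iInter_of_finite fun i => isOpen_iInter_of_finite fun j => ?_
  have h1 : Continuous (fun g : GL (Fin 2) (v.adicCompletion K) =>
      (g : Matrix (Fin 2) (Fin 2) (v.adicCompletion K)) i j) :=
    (Units.continuous_val.matrix_elem i j)
  have h2 : Continuous (fun g : GL (Fin 2) (v.adicCompletion K) =>
      ((g⁻¹ : GL (Fin 2) (v.adicCompletion K)) :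
        Matrix (Fin 2) (Fin 2) (v.adicCompletion K)) i j) :=
    (Units.continuous_coe_inv.matrix_elem i j)
  exact ((isOpen_valLe117 v n).preimage (h1.sub continuous_const)).inter
    ((isOpen_valLe117 v n).preimage (h2.sub continuous_const))

end Fermat.Agent.LT.T7.H117

end
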