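import Mathlib
import Fermat.Agent.LT.T7.H117.HaarSplitA

/-!
# Row LT, tower T7, leaf C2.7.4 `HaarSplitC305` (helper117, OFF-MAIN): the component map

* `compHom117 S` : the homomorphism `y ↦ (y_v)_{v ∈ S ∪ S_∞}` (`= compS305 S`), continuous;
* `compHom_surj117` : ONTO from `Out_S` (`K` totally complex);
* `ker_sub117` : the kernel in `Out_S` lies in the standard compact subgroup.
-/

set_option autoImplicit false

open IsDedekindDomain NumberField MeasureTheory Set Topology
open scoped NNReal ENNReal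

noncomputable section

namespace Fermat.Agent.LT.T7.H117

open Fermat.Agent.LT.H556 Fermat.Agent.LT.H556.A0 Fermat.Agent.LT.T7 Fermat.Agent.LT.T7.H305

variable {K : Type} [Field K] [NumberField K]

/-- The target group `∏_{v ∈ S} GL₂(K_v) × ∏_w GL₂(ℂ)`. -/
abbrev HS117 (K : Type) [Field K] [NumberField K] (S : Finset (HeightOneSpectrum (𝓞 K))) :
    Type :=
  (∀ v : S, GL (Fin 2) ((v : HeightOneSpectrum (𝓞 K)).adicCompletion K)) ×
    (InfinitePlace K → GL (Fin 2) ℂ)

/-- The component map as a homomorphism. -/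
def compHom117 (S : Finset (HeightOneSpectrum (𝓞 K))) : G K →* HS117 K S :=
  MonoidHom.prod (MonoidHom.pi fun v : S => finGL305 v.1) (MonoidHom.pi fun w => infGL305 w)

theorem compHom_apply117 (S : Finset (HeightOneSpectrum (𝓞 K))) (y : G K) :
    compHom117 S y = compS305 S y := rfl

theorem coe_compHom117 (S : Finset (HeightOneSpectrum (𝓞 K))) :
    (compHom117 S : G K → HS117 K S) = compS305 S := rfl

theorem continuous_compHom117 (S : Finset (HeightOneSpectrum (𝓞 K))) :
    Continuous (compHom117 (K := K) S) := by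
  have h : Continuous (fun y : G K => compS305 S y) :=
    Continuous.prodMk (continuous_pi fun v => continuous_finGL117 v.1)
      (continuous_pi fun w => continuous_infGL117 w)
  exact h

theorem exists_fin117 (T : Finset (HeightOneSpectrum (𝓞 K)))
    (a : ∀ v : HeightOneSpectrum (𝓞 K), GL (Fin 2) (v.adicCompletion K)) :
    ∃ x : G K, (∀ v ∈ T, finGL305 v x = a v) ∧ (∀ v, v ∉ T → finGL305 v x = 1) ∧
      ∀ w : InfinitePlace K, infGL305 w x = 1 := by
  classical
  induction T using Finset.induction_on with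
  | empty => exact ⟨1, by simp, fun v _ => map_one _, fun w => map_one _⟩
  | insert v₀ T hv₀ ih =>
    obtain ⟨x, h1, h2, h3⟩ := ih
    refine ⟨T3.H57.finEmb57 v₀ (a v₀) * x, ?_, ?_, ?_⟩
    · intro v hv
      rw [map_mul]
      rcases Finset.mem_insert.1 hv with h | hv'
      · subst h
        rw [h2 v hv₀, mul_one]
        exact T3.H57.finGL_finEmb57 v (a v)
      · have hne : v ≠ v₀ := fun h => hv₀ (h ▸ hv')
        rw [h1 v hv', show finGL305 v (T3.H57.finEmb57 v₀ (a v₀)) = 1 from
          T3.H57.finGL_finEmb_ne57 v₀ (a v₀) v hne, one_mul]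
    · intro v hv
      rw [Finset.mem_insert, not_or] at hv
      rw [map_mul, h2 v hv.2, mul_one]
      exact T3.H57.finGL_finEmb_ne57 v₀ (a v₀) v hv.1
    · intro w
      rw [map_mul, h3 w, mul_one]
      exact T3.H57.infGL_finEmb57 v₀ (a v₀) w

theorem compHom_surj117 (hK : TotCplx K) (S : Finset (HeightOneSpectrum (𝓞 K)))
    (h : HS117 K S) : ∃ x ∈ outSub117 S, compHom117 S x = h := by
  classical
  have hK' : ∀ w : InfinitePlace K, w.IsComplex := hK
  obtain ⟨x, h1, h2, h3⟩ := exists_fin117 S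
    (fun v => if hv : v ∈ S then h.1 ⟨v, hv⟩ else 1)
  refine ⟨T3.H57.infEmb57 hK' h.2 * x, ?_, ?_⟩
  · intro v hv
    have hfin : finGL305 v (T3.H57.infEmb57 hK' h.2 * x) = 1 := by
      rw [map_mul, h2 v hv, mul_one]
      exact T3.H57.finGL_infEmb57 hK' h.2 v
    refine ⟨isIntegralAt_of_eq_one117 v _ hfin, isIntegralAt_of_eq_one117 v _ ?_⟩
    rw [map_inv, hfin, inv_one]
  · refine Prod.ext (funext fun v => ?_) (funext fun w => ?_)
    · show finGL305 v.1 (T3.H57.infEmb57 hK' h.2 * x) = h.1 v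
      rw [map_mul, h1 v.1 v.2, show finGL305 v.1 (T3.H57.infEmb57 hK' h.2) = 1 from
        T3.H57.finGL_infEmb57 hK' h.2 v.1, one_mul, dif_pos v.2]
    · show infGL305 w (T3.H57.infEmb57 hK' h.2 * x) = h.2 w
      rw [map_mul, h3 w, mul_one]
      exact T3.H57.infGL_infEmb57 hK' h.2 w

theorem ker_sub117 (S : Finset (HeightOneSpectrum (𝓞 K))) (x : G K) (hx : x ∈ outSub117 S)
    (h : compHom117 S x = 1) : x ∈ {k : G K | T1.IsStdCompact K k} := by
  have h1 : ∀ v : S, finGL305 v.1 x = 1 := fun v => congrFun (congrArg Prod.fst h) v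
  have h2 : ∀ w : InfinitePlace K, infGL305 w x = 1 := fun w =>
    congrFun (congrArg Prod.snd h) w
  refine ⟨fun v => ?_, fun w => ?_⟩
  · by_cases hv : v ∈ S
    · have h3 := h1 ⟨v, hv⟩
      refine ⟨isIntegralAt_of_eq_one117 v x h3, isIntegralAt_of_eq_one117 v _ ?_⟩
      rw [map_inv, h3, inv_one]
    · exact hx v hv
  · have hc : infComp w x = 1 := by
      rw [← infGL_val117, h2 w, Units.val_one]
    rw [hc]
    exact ⟨by simp, fun _ => Matrix.det_one⟩

end Fermat.Agent.LT.T7.H117

end
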