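import Mathlib
import Fermat.Agent.LT.T7.H340.UpFactSpec
import Fermat.Agent.LT.T7.H117.HaarSplitB
import Fermat.Agent.LT.T7.H557.DescTriv

/-!
# Row LT, tower T7, leaf UF.B1 `GrpSplitC340` (helper117, OFF-MAIN): the group theory

* `exists_under117` : every finite place of `K'` lies over a place of `K`;
* `continuous_of_val117` : a ring homomorphism of completions which preserves the valuation is
  continuous; `inU_map_iff117` : it preserves `U(n)`;
* `exists_finI117` : an element of `GL₂(𝔸)` with prescribed components at finitely many places;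
* `upHom117 U l` : the grouped coordinates `upCoord340 U l` as a homomorphism, continuous, ONTO
  from `Out_{S'}`, kernel in `Out_{S'}` contained in the standard compact subgroup.
-/

set_option autoImplicit false
set_option linter.style.haveILetI false
set_option linter.unusedSectionVars false

open IsDedekindDomain NumberField MeasureTheory Set Topology
open scoped NNReal ENNReal

noncomputable section

namespace Fermat.Agent.LT.T7.H117

open Fermat.Agent.LT.H556 Fermat.Agent.LT.H556.A0 Fermat.Agent.LT.T7 Fermat.Agent.LT.T7.H305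
open Fermat.Agent.LT.T7.H340

/-! ## 1. One field: prescribed components -/

section OneField

variable {K : Type} [Field K] [NumberField K]

theorem exists_finI117 {I : Type} [DecidableEq I] (T : Finset I)
    (place : I → HeightOneSpectrum (𝓞 K)) (hinj : Function.Injective place)
    (g : ∀ i : I, GL (Fin 2) ((place i).adicCompletion K)) :
    ∃ x : G K, (∀ i ∈ T, finGL305 (place i) x = g i) ∧
      (∀ w : HeightOneSpectrum (𝓞 K), (∀ i ∈ T, place i ≠ w) → finGL305 w x = 1) ∧
      ∀ w : InfinitePlace K, infGL305 w x = 1 := by
  classical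
  induction T using Finset.induction_on with
  | empty => exact ⟨1, by simp, fun v _ => map_one _, fun w => map_one _⟩
  | insert i₀ T hi₀ ih =>
    obtain ⟨x, h1, h2, h3⟩ := ih
    refine ⟨T3.H57.finEmb57 (place i₀) (g i₀) * x, ?_, ?_, ?_⟩
    · intro i hi
      rw [map_mul]
      rcases Finset.mem_insert.1 hi with h | hi'
      · subst h
        rw [h2 (place i) (fun j hj hji => hi₀ (hinj hji ▸ hj)), mul_one]
        exact T3.H57.finGL_finEmb57 (place i) (g i)
      · have hne : place i ≠ place i₀ := fun h => hi₀ (hinj h ▸ hi')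
        rw [h1 i hi', show finGL305 (place i) (T3.H57.finEmb57 (place i₀) (g i₀)) = 1 from
          T3.H57.finGL_finEmb_ne57 (place i₀) (g i₀) (place i) hne, one_mul]
    · intro w hw
      rw [map_mul, h2 w (fun i hi => hw i (Finset.mem_insert_of_mem hi)), mul_one]
      exact T3.H57.finGL_finEmb_ne57 (place i₀) (g i₀) w
        (fun h => hw i₀ (Finset.mem_insert_self _ _) h.symm)
    · intro w
      rw [map_mul, h3 w, mul_one]
      exact T3.H57.infGL_finEmb57 (place i₀) (g i₀) w

end OneField

/-! ## 2. Two fields -/

variable {K K' : Type} [Field K] [NumberField K] [Field K'] [NumberField K'] [Algebra K K']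

/-- Every finite place of `K'` lies over a place of `K`. -/
theorem exists_under117 (w : HeightOneSpectrum (𝓞 K')) :
    ∃ v : HeightOneSpectrum (𝓞 K), PlaceOver K K' v w := by
  haveI := w.isPrime
  refine ⟨⟨Ideal.comap (algebraMap (𝓞 K) (𝓞 K')) w.asIdeal, inferInstance, ?_⟩, ?_⟩
  · intro h
    exact w.ne_bot (Ideal.eq_bot_of_comap_eq_bot h)
  · exact (H557.placeOver_iff_557 _ w).2 rfl

/-- `K'` is totally complex if `K` is. -/
theorem totCplx_up117 (hK : TotCplx K) (w' : InfinitePlace K') : w'.IsComplex := by
  rw [← InfinitePlace.not_isReal_iff_isComplex]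
  intro hr
  have h1 : (w'.comap (algebraMap K K')).IsReal := InfinitePlace.IsReal.comap _ hr
  exact InfinitePlace.not_isReal_iff_isComplex.2 (hK _) h1

/-- A ring homomorphism of completions which preserves the valuation is continuous. -/
theorem continuous_of_val117 {v : HeightOneSpectrum (𝓞 K)} {w : HeightOneSpectrum (𝓞 K')}
    (f : w.adicCompletion K' →+* v.adicCompletion K)
    (hf : ∀ y : w.adicCompletion K', Valued.v (f y) = Valued.v y) : Continuous f := by
  have h0 : ContinuousAt f 0 := by
    rw [ContinuousAt, map_zero]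
    intro s hs
    rw [Valued.mem_nhds_zero] at hs
    obtain ⟨γ, hγ⟩ := hs
    have hne : MonoidWithZeroHom.ValueGroup₀.embedding γ.1 ≠ 0 :=
      (map_ne_zero _).2 γ.ne_zero
    have hk := WithZero.exp_log hne
    set k : ℤ := WithZero.log (MonoidWithZeroHom.ValueGroup₀.embedding γ.1) with hkdef
    set n : ℕ := (1 - k).toNat with hn
    have hnk : -(n : ℤ) < k := by
      have : (1 - k) ≤ ((1 - k).toNat : ℤ) := Int.self_le_toNat _
      omega
    show f ⁻¹' s ∈ 𝓝 (0 : w.adicCompletion K')
    refine Filter.mem_of_superset ((isOpen_valLe117 w n).mem_nhds ?_) ?_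
    · simp
    · intro y hy
      apply hγ
      show Valued.v.restrict (f y) < γ.1
      rw [Valuation.restrict_lt_iff_lt_embedding, ← hk, hf]
      exact lt_of_le_of_lt hy (WithZero.exp_lt_exp.2 hnk)
  exact continuous_of_continuousAt_zero f h0

theorem continuous_glMap117 {A B : Type} [CommRing A] [CommRing B]
    [TopologicalSpace A] [TopologicalSpace B] (f : A →+* B) (hf : Continuous f) :
    Continuous (Matrix.GeneralLinearGroup.map (n := Fin 2) f) := by
  refine Continuous.units_map _ ?_
  exact Continuous.matrix_map continuous_id hf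

/-- A homomorphism which preserves the valuation preserves `U(n)`. -/
theorem inU_map_iff117 {k k' : Type} [Field k] [Valued k T6.Γ₀] [Field k'] [Valued k' T6.Γ₀]
    (f : k' →+* k) (hf : ∀ y : k', Valued.v (f y) = Valued.v y) (n : ℕ) (g : GL (Fin 2) k') :
    T6.InU n (Matrix.GeneralLinearGroup.map f g) ↔ T6.InU n g := by
  have key : ∀ (h : GL (Fin 2) k') (i j : Fin 2),
      ((Matrix.GeneralLinearGroup.map f h : GL (Fin 2) k) : Matrix (Fin 2) (Fin 2) k) i j
          - (1 : Matrix (Fin 2) (Fin 2) k) i j
        = f ((h : Matrix (Fin 2) (Fin 2) k') i j - (1 : Matrix (Fin 2) (Fin 2) k') i j) := by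
    intro h i j
    rw [map_sub]
    congr 1
    rw [Matrix.one_apply, Matrix.one_apply]
    split_ifs <;> simp
  constructor
  · intro h i j
    have h1 := (h i j).1
    have h2 := (h i j).2
    rw [key, hf] at h1
    rw [← map_inv, key, hf] at h2
    exact ⟨h1, h2⟩
  · intro h i j
    refine ⟨?_, ?_⟩
    · rw [key, hf]
      exact (h i j).1
    · rw [← map_inv, key, hf]
      exact (h i j).2

end Fermat.Agent.LT.T7.H117

end
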