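import Mathlib
import Fermat.Agent.LT.T7.H117.GrpSplitA

/-!
# Row LT, tower T7, leaf UF.B1 `GrpSplitC340` (helper117, OFF-MAIN): the grouped coordinates

`upHom117 U l` : the grouped coordinates `upCoord340 U l` as a homomorphism; continuous
(`continuous_upHom117`), ONTO from `Out_{S'}` (`upHom_surj117`), kernel in `Out_{S'}` contained in
the standard compact subgroup (`upKer_sub117`).
-/

set_option autoImplicit false
set_option linter.style.haveILetI false
set_option linter.unusedSectionVars false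

open IsDedekindDomain NumberField MeasureTheory Set Topology
open scoped NNReal ENNReal

noncomputable section

namespace Fermat.Agent.LT.T7.H117

open Fermat.Agent.LT.H556 Fermat.Agent.LT.H556.A0 Fermat.Agent.LT.T7 Fermat.Agent.LT.T7.H305
open Fermat.Agent.LT.T7.H340

variable {K K' : Type} [Field K] [NumberField K] [Field K'] [NumberField K'] [Algebra K K']

theorem glMap_cancel117 {A B : Type} [CommRing A] [CommRing B] (f : A →+* B) (g : B →+* A)
    (hgf : ∀ x : A, g (f x) = x) (z : GL (Fin 2) A) :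
    Matrix.GeneralLinearGroup.map g (Matrix.GeneralLinearGroup.map f z) = z := by
  apply Units.ext
  ext i j
  show g (f ((z : Matrix (Fin 2) (Fin 2) A) i j)) = _
  exact hgf _

theorem glMap_eq_one117 {A B : Type} [CommRing A] [CommRing B] (f : A →+* B) (g : B →+* A)
    (hgf : ∀ x : A, g (f x) = x) (z : GL (Fin 2) A)
    (h : Matrix.GeneralLinearGroup.map f z = 1) : z = 1 := by
  rw [← glMap_cancel117 f g hgf z, h, map_one]

/-- The target group of the grouped coordinates. -/
abbrev HU117 {δ : GL (Fin 2) K'} (U : UpDat340 K δ) (l : ℕ) : Type :=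
  (∀ v : U.Sin, GL (Fin 2) ((U.dI v).w.adicCompletion K')) ×
    ((∀ v : U.Ssp, Fin l → GL (Fin 2) ((v : HeightOneSpectrum (𝓞 K)).adicCompletion K)) ×
      (InfinitePlace K → Fin l → GL (Fin 2) ℂ))

/-- The grouped coordinates as a homomorphism. -/
def upHom117 {δ : GL (Fin 2) K'} (U : UpDat340 K δ) (l : ℕ) : G K' →* HU117 U l :=
  MonoidHom.prod (MonoidHom.pi fun v : U.Sin => finGL305 (U.dI v).w)
    (MonoidHom.prod
      (MonoidHom.pi fun v : U.Ssp => MonoidHom.pi fun a : Fin l =>
        (Matrix.GeneralLinearGroup.map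
          ((((U.dS v).i a.1).symm : ((U.dS v).w a.1).adicCompletion K' ≃+* _) :
            ((U.dS v).w a.1).adicCompletion K' →+* (v : HeightOneSpectrum (𝓞 K)).adicCompletion K)).comp
          (finGL305 ((U.dS v).w a.1)))
      (MonoidHom.pi fun v : InfinitePlace K => MonoidHom.pi fun a : Fin l =>
        (Matrix.GeneralLinearGroup.map ((U.dA v).d a.1)).comp (infGL305 ((U.dA v).w a.1))))

theorem coe_upHom117 {δ : GL (Fin 2) K'} (U : UpDat340 K δ) (l : ℕ) :
    (upHom117 U l : G K' → HU117 U l) = upCoord340 U l := rfl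

theorem val_symm117 {D : CompData K K'} {ι : Adl K →+* Adl K'}
    {v : HeightOneSpectrum (𝓞 K)} {d : SplitDat340 K' v} (hd : IsSplitDat340 D ι d) (a : ℕ)
    (y : (d.w a).adicCompletion K') :
    Valued.v ((((d.i a).symm : (d.w a).adicCompletion K' ≃+* _) :
      (d.w a).adicCompletion K' →+* v.adicCompletion K) y) = Valued.v y := by
  have h := hd.val_i a ((d.i a).symm y)
  rw [RingEquiv.apply_symm_apply] at h
  exact h.symm

theorem continuous_upHom117 {D : CompData K K'} {ι : Adl K →+* Adl K'}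
    {n : HeightOneSpectrum (𝓞 K') → ℕ} {δ : GL (Fin 2) K'} {γ : GL (Fin 2) K}
    {L : LocData305 K γ} {S : Finset (HeightOneSpectrum (𝓞 K))} (U : UpDat340 K δ)
    (hU : IsUpDat340 D ι n L S U) : Continuous (upHom117 U D.l) := by
  have h : Continuous (fun y : G K' => upCoord340 U D.l y) := by
    refine Continuous.prodMk (continuous_pi fun v => continuous_finGL117 _)
      (Continuous.prodMk (continuous_pi fun v => continuous_pi fun a => ?_)
        (continuous_pi fun v => continuous_pi fun a => ?_))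
    · exact (continuous_glMap117 _
        (continuous_of_val117 _ (val_symm117 (hU.split v) a.1))).comp (continuous_finGL117 _)
    · have hd : Continuous ((U.dA v).d a.1) := by
        rcases (hU.arch v).typ a.1 with h | h
        · rw [h]; exact continuous_id
        · rw [h]; exact Complex.continuous_conj
      exact (continuous_glMap117 _ hd).comp (continuous_infGL117 _)
  exact h

theorem arch_invol117 {D : CompData K K'} {ι : Adl K →+* Adl K'} {v : InfinitePlace K}
    {d : ArchDat340 K'} (hd : IsArchDat340 D ι v d) (a : ℕ) (z : ℂ) : d.d a (d.d a z) = z := by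
  rcases hd.typ a with h | h
  · rw [h]; rfl
  · rw [h]; exact Complex.conj_conj z

theorem place_mem117 {D : CompData K K'} {ι : Adl K →+* Adl K'}
    {n : HeightOneSpectrum (𝓞 K') → ℕ} {δ : GL (Fin 2) K'} {γ : GL (Fin 2) K}
    {L : LocData305 K γ} {S : Finset (HeightOneSpectrum (𝓞 K))}
    {S' : Finset (HeightOneSpectrum (𝓞 K'))} (hS' : IsOver305 S S') (U : UpDat340 K δ)
    (hU : IsUpDat340 D ι n L S U) :
    (∀ v : U.Sin, (U.dI v).w ∈ S') ∧ ∀ (v : U.Ssp) (a : ℕ), (U.dS v).w a ∈ S' := by
  refine ⟨fun v => ?_, fun v a => ?_⟩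
  · exact (hS' _).2 ⟨v.1, (hU.union v.1).2 (Or.inl v.2), (hU.inert v).ovr⟩
  · exact (hS' _).2 ⟨v.1, (hU.union v.1).2 (Or.inr v.2), (hU.split v).ovr a⟩

theorem upHom_surj117 (hK : TotCplx K) {D : CompData K K'} {ι : Adl K →+* Adl K'}
    {n : HeightOneSpectrum (𝓞 K') → ℕ} {δ : GL (Fin 2) K'} {γ : GL (Fin 2) K}
    {L : LocData305 K γ} {S : Finset (HeightOneSpectrum (𝓞 K))}
    {S' : Finset (HeightOneSpectrum (𝓞 K'))} (hS' : IsOver305 S S') (U : UpDat340 K δ)
    (hU : IsUpDat340 D ι n L S U) (h : HU117 U D.l) :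
    ∃ x ∈ outSub117 S', upHom117 U D.l x = h := by
  classical
  have hK' : ∀ w' : InfinitePlace K', w'.IsComplex := totCplx_up117 hK
  -- the finite part
  let I : Type := U.Sin ⊕ (U.Ssp × Fin D.l)
  let place : I → HeightOneSpectrum (𝓞 K') :=
    Sum.elim (fun v => (U.dI v).w) (fun p => (U.dS p.1).w p.2.1)
  let g : ∀ i : I, GL (Fin 2) ((place i).adicCompletion K') := fun i =>
    @Sum.rec U.Sin (U.Ssp × Fin D.l) (fun i => GL (Fin 2) ((place i).adicCompletion K'))
      (fun v => h.1 v)
      (fun p => Matrix.GeneralLinearGroup.map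
        (((U.dS p.1).i p.2.1 : _ ≃+* _) :
          (p.1 : HeightOneSpectrum (𝓞 K)).adicCompletion K →+*
            ((U.dS p.1).w p.2.1).adicCompletion K') (h.2.1 p.1 p.2)) i
  have hinj : Function.Injective place := by
    rintro (v | ⟨v, a⟩) (v' | ⟨v', a'⟩) hvv
    · have h1 : (v : HeightOneSpectrum (𝓞 K)) = v' :=
        H557.placeOver_unique_557 (hU.inert v).ovr
          (show PlaceOver K K' v'.1 (U.dI v).w from
            (show (U.dI v).w = (U.dI v').w from hvv) ▸ (hU.inert v').ovr)
      exact congrArg Sum.inl (Subtype.ext h1)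
    · exfalso
      have h1 : (v : HeightOneSpectrum (𝓞 K)) = v' :=
        H557.placeOver_unique_557 (hU.inert v).ovr
          (show PlaceOver K K' v'.1 (U.dI v).w from
            (show (U.dI v).w = (U.dS v').w a'.1 from hvv) ▸ (hU.split v').ovr a'.1)
      exact hU.disj v.1 v.2 (h1 ▸ v'.2)
    · exfalso
      have h1 : (v' : HeightOneSpectrum (𝓞 K)) = v :=
        H557.placeOver_unique_557 (hU.inert v').ovr
          (show PlaceOver K K' v.1 (U.dI v').w from
            (show (U.dI v').w = (U.dS v).w a.1 from hvv.symm) ▸ (hU.split v).ovr a.1)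
      exact hU.disj v'.1 v'.2 (h1 ▸ v.2)
    · have hvv' : (U.dS v).w a.1 = (U.dS v').w a'.1 := hvv
      have h1 : (v : HeightOneSpectrum (𝓞 K)) = v' :=
        H557.placeOver_unique_557 ((hU.split v).ovr a.1)
          (show PlaceOver K K' v'.1 ((U.dS v).w a.1) from hvv' ▸ (hU.split v').ovr a'.1)
      have h2 : v = v' := Subtype.ext h1
      subst h2
      have h3 : a.1 = a'.1 := (hU.split v).inj a.1 a'.1 a.2 a'.2 hvv'
      have h4 : a = a' := Fin.ext h3
      rw [h4]
  obtain ⟨x, h1, h2, h3⟩ := exists_finI117 Finset.univ place hinj g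
  -- the infinite part
  have hex : ∀ w' : InfinitePlace K',
      ∃ a : Fin D.l, w' = (U.dA (w'.comap (algebraMap K K'))).w a.1 := fun w' => by
    obtain ⟨a, ha, hw⟩ := (hU.arch _).exh w' rfl
    exact ⟨⟨a, ha⟩, hw⟩
  choose aIdx haIdx using hex
  let t : InfinitePlace K' → GL (Fin 2) ℂ := fun w' =>
    Matrix.GeneralLinearGroup.map ((U.dA (w'.comap (algebraMap K K'))).d (aIdx w').1)
      (h.2.2 (w'.comap (algebraMap K K')) (aIdx w'))
  have ht : ∀ (w' : InfinitePlace K') (v : InfinitePlace K) (a : Fin D.l),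
      w'.comap (algebraMap K K') = v → w' = (U.dA v).w a.1 →
      t w' = Matrix.GeneralLinearGroup.map ((U.dA v).d a.1) (h.2.2 v a) := by
    intro w' v a hv hw
    subst hv
    have h5 : aIdx w' = a :=
      Fin.ext ((hU.arch _).inj _ _ (aIdx w').2 a.2 ((haIdx w').symm.trans hw))
    show Matrix.GeneralLinearGroup.map _ _ = _
    rw [h5]
  refine ⟨T3.H57.infEmb57 hK' t * x, ?_, ?_⟩
  · intro w hw
    have hpl := place_mem117 hS' U hU
    have hfin : finGL305 w (T3.H57.infEmb57 hK' t * x) = 1 := by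
      rw [map_mul, h2 w ?_, mul_one]
      · exact T3.H57.finGL_infEmb57 hK' t w
      · rintro (v | ⟨v, a⟩) _ hi
        · exact hw (hi ▸ hpl.1 v)
        · exact hw (hi ▸ hpl.2 v a.1)
    refine ⟨isIntegralAt_of_eq_one117 w _ hfin, isIntegralAt_of_eq_one117 w _ ?_⟩
    rw [map_inv, hfin, inv_one]
  · refine Prod.ext (funext fun v => ?_) (Prod.ext (funext fun v => funext fun a => ?_)
      (funext fun v => funext fun a => ?_))
    · show finGL305 (U.dI v).w (T3.H57.infEmb57 hK' t * x) = h.1 v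
      rw [map_mul, show finGL305 (U.dI v).w (T3.H57.infEmb57 hK' t) = 1 from
        T3.H57.finGL_infEmb57 hK' t _, one_mul]
      exact h1 (Sum.inl v) (Finset.mem_univ _)
    · show Matrix.GeneralLinearGroup.map _
        (finGL305 ((U.dS v).w a.1) (T3.H57.infEmb57 hK' t * x)) = h.2.1 v a
      rw [map_mul, show finGL305 ((U.dS v).w a.1) (T3.H57.infEmb57 hK' t) = 1 from
        T3.H57.finGL_infEmb57 hK' t _, one_mul]
      have h6 := h1 (Sum.inr (v, a)) (Finset.mem_univ _)
      rw [show finGL305 ((U.dS v).w a.1) x = g (Sum.inr (v, a)) from h6]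
      exact glMap_cancel117 _ _ (fun z => RingEquiv.symm_apply_apply _ z) _
    · show Matrix.GeneralLinearGroup.map _
        (infGL305 ((U.dA v).w a.1) (T3.H57.infEmb57 hK' t * x)) = h.2.2 v a
      rw [map_mul, h3, mul_one, show infGL305 ((U.dA v).w a.1) (T3.H57.infEmb57 hK' t)
        = t ((U.dA v).w a.1) from T3.H57.infGL_infEmb57 hK' t _,
        ht _ v a ((hU.arch v).ovr a.1) rfl]
      exact glMap_cancel117 _ _ (arch_invol117 (hU.arch v) a.1) _

theorem upKer_sub117 {D : CompData K K'} {ι : Adl K →+* Adl K'}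
    {n : HeightOneSpectrum (𝓞 K') → ℕ} {δ : GL (Fin 2) K'} {γ : GL (Fin 2) K}
    {L : LocData305 K γ} {S : Finset (HeightOneSpectrum (𝓞 K))}
    {S' : Finset (HeightOneSpectrum (𝓞 K'))} (hS' : IsOver305 S S') (U : UpDat340 K δ)
    (hU : IsUpDat340 D ι n L S U) (x : G K') (hx : x ∈ outSub117 S')
    (h : upHom117 U D.l x = 1) : x ∈ {k : G K' | T1.IsStdCompact K' k} := by
  have h1 : ∀ v : U.Sin, finGL305 (U.dI v).w x = 1 := fun v => congrFun (congrArg Prod.fst h) v
  have h2 : ∀ (v : U.Ssp) (a : Fin D.l), finGL305 ((U.dS v).w a.1) x = 1 := by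
    intro v a
    have h3 : Matrix.GeneralLinearGroup.map
        ((((U.dS v).i a.1).symm : ((U.dS v).w a.1).adicCompletion K' ≃+* _) :
          ((U.dS v).w a.1).adicCompletion K' →+*
            (v : HeightOneSpectrum (𝓞 K)).adicCompletion K)
        (finGL305 ((U.dS v).w a.1) x) = 1 :=
      congrFun (congrFun (congrArg (fun p => p.2.1) h) v) a
    exact glMap_eq_one117 _ (((U.dS v).i a.1 : _ ≃+* _) : _ →+* _)
      (fun z => RingEquiv.apply_symm_apply _ z) _ h3
  have h4 : ∀ (v : InfinitePlace K) (a : Fin D.l), infGL305 ((U.dA v).w a.1) x = 1 := by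
    intro v a
    have h3 : Matrix.GeneralLinearGroup.map ((U.dA v).d a.1) (infGL305 ((U.dA v).w a.1) x) = 1 :=
      congrFun (congrFun (congrArg (fun p => p.2.2) h) v) a
    exact glMap_eq_one117 _ ((U.dA v).d a.1) (arch_invol117 (hU.arch v) a.1) _ h3
  refine ⟨fun w => ?_, fun w' => ?_⟩
  · by_cases hw : w ∈ S'
    · obtain ⟨v, hvS, hvw⟩ := (hS' w).1 hw
      have hfin : finGL305 w x = 1 := by
        rcases (hU.union v).1 hvS with hv | hv
        · have h5 : w = (U.dI ⟨v, hv⟩).w := (hU.inert ⟨v, hv⟩).uniq w hvw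
          rw [h5]
          exact h1 ⟨v, hv⟩
        · obtain ⟨a, ha, h5⟩ := (hU.split ⟨v, hv⟩).exh w hvw
          rw [h5]
          exact h2 ⟨v, hv⟩ ⟨a, ha⟩
      refine ⟨isIntegralAt_of_eq_one117 w x hfin, isIntegralAt_of_eq_one117 w _ ?_⟩
      rw [map_inv, hfin, inv_one]
    · exact hx w hw
  · obtain ⟨a, ha, h5⟩ := (hU.arch (w'.comap (algebraMap K K'))).exh w' rfl
    have h6 : infGL305 w' x = 1 := by
      have := h4 (w'.comap (algebraMap K K')) ⟨a, ha⟩
      rwa [← h5] at this
    have hc : infComp w' x = 1 := by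
      rw [← infGL_val117, h6, Units.val_one]
    rw [hc]
    exact ⟨by simp, fun _ => Matrix.det_one⟩

end Fermat.Agent.LT.T7.H117

end
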