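import Mathlib

/-!
# Row LT, tower T7, leaf C2.7.4 `HaarSplitC305` (helper117, OFF-MAIN): the abstract core

Mathlib only.  `haarPush117`: the image of a Haar measure, restricted to an open subgroup `O`,
under a continuous homomorphism `p` which maps `O` ONTO a locally compact second countable group
`H` with a kernel (in `O`) contained in a compact set, is a positive multiple of every Haar
measure of `H` (open mapping theorem + uniqueness of the Haar measure).
-/

set_option autoImplicit false

open MeasureTheory Measure Set Pointwise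
open scoped NNReal ENNReal

namespace Fermat.Agent.LT.T7.H117

/-- **Abstract core of HAAR-SPLIT.** -/
theorem haarPush117 {G H : Type*} [Group G] [TopologicalSpace G] [IsTopologicalGroup G]
    [LocallyCompactSpace G] [SigmaCompactSpace G] [MeasurableSpace G] [BorelSpace G]
    [Group H] [TopologicalSpace H] [IsTopologicalGroup H] [LocallyCompactSpace H] [T2Space H]
    [SecondCountableTopology H] [MeasurableSpace H] [BorelSpace H]
    (μ : Measure G) [μ.IsHaarMeasure] (ν : Measure H) [ν.IsHaarMeasure]
    (O : Subgroup G) (hO : IsOpen (O : Set G))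
    (p : G →* H) (hp : Continuous p) (hsurj : ∀ h : H, ∃ x ∈ O, p x = h)
    (C : Set G) (hC : IsCompact C) (hker : ∀ x ∈ O, p x = 1 → x ∈ C) :
    ∃ c : ℝ≥0, c ≠ 0 ∧ Measure.map p (μ.restrict (O : Set G)) = c • ν := by
  classical
  have hpm : Measurable p := hp.measurable
  have hOm : MeasurableSet (O : Set G) := hO.measurableSet
  set ν' : Measure H := Measure.map p (μ.restrict (O : Set G)) with hν'
  -- left invariance
  have hinv : ν'.IsMulLeftInvariant := by
    refine ⟨fun h => ?_⟩
    obtain ⟨x, hx, rfl⟩ := hsurj h
    have h1 : (fun y : H => p x * y) ∘ p = p ∘ (fun y : G => x * y) := by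
      funext y; simp
    rw [hν', Measure.map_map (measurable_const_mul _) hpm, h1,
      ← Measure.map_map hpm (measurable_const_mul _)]
    congr 1
    have h2 : (fun y : G => x * y) ⁻¹' (O : Set G) = (O : Set G) := by
      ext y
      simp only [mem_preimage, SetLike.mem_coe]
      exact Subgroup.mul_mem_cancel_left O hx
    calc Measure.map (fun y : G => x * y) (μ.restrict (O : Set G))
        = Measure.map (fun y : G => x * y)
            (μ.restrict ((fun y : G => x * y) ⁻¹' (O : Set G))) := by rw [h2]
      _ = (Measure.map (fun y : G => x * y) μ).restrict (O : Set G) :=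
          (Measure.restrict_map (measurable_const_mul x) hOm).symm
      _ = μ.restrict (O : Set G) := by rw [map_mul_left_eq_self]
  -- finiteness on one open set
  obtain ⟨N, hNc, hN1⟩ := exists_compact_mem_nhds (1 : G)
  have hsurj' : Function.Surjective p := fun h => by
    obtain ⟨x, -, hx⟩ := hsurj h
    exact ⟨x, hx⟩
  have hopen : IsOpenMap p := MonoidHom.isOpenMap_of_sigmaCompact p hsurj' hp
  set U : Set G := interior N ∩ (O : Set G) with hUdef
  have hU : IsOpen U := isOpen_interior.inter hO
  have h1U : (1 : G) ∈ U := ⟨mem_interior_iff_mem_nhds.2 hN1, O.one_mem⟩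
  set V : Set H := p '' U with hVdef
  have hV : IsOpen V := hopen U hU
  have h1V : (1 : H) ∈ V := ⟨1, h1U, map_one p⟩
  have hsub : p ⁻¹' V ∩ (O : Set G) ⊆ N * C := by
    rintro y ⟨⟨x, hxU, hxy⟩, hyO⟩
    refine Set.mem_mul.2 ⟨x, interior_subset hxU.1, x⁻¹ * y, ?_, by simp⟩
    apply hker
    · exact O.mul_mem (O.inv_mem hxU.2) hyO
    · rw [map_mul, map_inv, hxy]
      simp
  have hfin : ν' V < ∞ := by
    rw [hν', Measure.map_apply hpm hV.measurableSet,
      Measure.restrict_apply (hpm hV.measurableSet)]
    exact (measure_mono hsub).trans_lt (hNc.mul hC).measure_lt_top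
  have hfc : IsFiniteMeasureOnCompacts ν' :=
    ⟨fun K hK => measure_lt_top_of_isCompact_of_isMulLeftInvariant V hV ⟨1, h1V⟩ hfin.ne hK⟩
  have heq := isMulLeftInvariant_eq_smul ν' ν
  refine ⟨haarScalarFactor ν' ν, ?_, heq⟩
  intro h0
  rw [h0, zero_smul] at heq
  have h3 : ν' univ = μ (O : Set G) := by
    rw [hν', Measure.map_apply hpm MeasurableSet.univ]
    simp
  have hpos : 0 < μ (O : Set G) := hO.measure_pos μ ⟨1, O.one_mem⟩
  rw [heq] at h3
  simp only [Measure.coe_zero, Pi.zero_apply] at h3
  exact hpos.ne' h3.symm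

end Fermat.Agent.LT.T7.H117
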