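import Mathlib
import Fermat.Agent.LT.T7.H117.HaarPush
import Fermat.Agent.LT.T7.H117.GrpSplitB

/-!
# Row LT, tower T7, leaf UF.B1 `GrpSplitC340` (helper117, OFF-MAIN): CLOSED

`grpSplitC117 (K K') : H340.GrpSplitC340 K K'` VERBATIM and UNCONDITIONAL.

Proof.  NO regrouping of product measures: the grouped coordinates `upCoord340 U l` are a
continuous homomorphism which maps the open subgroup `Out_{S'}` ONTO the grouped product group,
with kernel in the standard compact subgroup, and the grouped product measure is a Haar measure: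
the abstract core `haarPush117` gives `c_S` times the product measure.  Evaluation on the box
`∏ U(n_w) × ∏ U(m_v)^l × ∏ B₀^l` (`B₀` a compact neighbourhood of `1` in `GL₂(ℂ)` stable under
complex conjugation): the preimage in `Out_{S'}` is `{y : y_w ∈ U(n_w) for ALL w, y_{w'} ∈ B₀}`
for all data, so the constant does not depend on the data.
-/

set_option autoImplicit false
set_option linter.style.haveILetI false
set_option linter.unusedSectionVars false

open IsDedekindDomain NumberField MeasureTheory Set Topology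
open scoped NNReal ENNReal

noncomputable section

namespace Fermat.Agent.LT.T7.H117

open Fermat.Agent.LT.H556 Fermat.Agent.LT.H556.A0 Fermat.Agent.LT.T7 Fermat.Agent.LT.T7.H305
open Fermat.Agent.LT.T7.H340

attribute [local instance] Fermat.Agent.LT.T5.instMeasurableSpaceG

variable {K K' : Type} [Field K] [NumberField K] [Field K'] [NumberField K'] [Algebra K K']

theorem measurableMul_prod117 {A B : Type*} [Mul A] [Mul B] [MeasurableSpace A]
    [MeasurableSpace B] [MeasurableMul A] [MeasurableMul B] : MeasurableMul (A × B) :=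
  ⟨fun c => ((measurable_const_mul c.1).comp measurable_fst).prodMk
      ((measurable_const_mul c.2).comp measurable_snd),
    fun c => ((measurable_mul_const c.1).comp measurable_fst).prodMk
      ((measurable_mul_const c.2).comp measurable_snd)⟩

theorem grpSplit_eval117 (hK : TotCplx K) (D : CompData K K') (hμ : D.R'.μ.IsHaarMeasure)
    (ι : Adl K →+* Adl K')
    (μc : @Measure (GL (Fin 2) ℂ) (borel _)) (hμc : @Measure.IsHaarMeasure _ _ _ (borel _) μc)
    (T₀ : Finset (HeightOneSpectrum (𝓞 K)))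
    (n : HeightOneSpectrum (𝓞 K') → ℕ) (m : HeightOneSpectrum (𝓞 K) → ℕ)
    (hlev : IsLevelAt305 T₀ n m)
    (B₀ : Set (GL (Fin 2) ℂ)) (hB₀ : IsCompact B₀)
    (hB₀c : ∀ z : GL (Fin 2) ℂ,
      Matrix.GeneralLinearGroup.map (starRingEnd ℂ) z ∈ B₀ ↔ z ∈ B₀)
    (S : Finset (HeightOneSpectrum (𝓞 K))) (S' : Finset (HeightOneSpectrum (𝓞 K')))
    (hS : T₀ ⊆ S) (hS' : IsOver305 S S')
    (δ : GL (Fin 2) K') (γ : GL (Fin 2) K) (L : LocData305 K γ) (hL : IsLocData305 m L)
    (U : UpDat340 K δ) (hU : IsUpDat340 D ι n L S U)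
    (hnm : ∀ (v : U.Ssp) (a : ℕ), n ((U.dS v).w a) = m v.1) :
    letI : ∀ w : HeightOneSpectrum (𝓞 K'),
        MeasurableSpace (GL (Fin 2) (w.adicCompletion K')) := fun _ => borel _
    letI : ∀ v : HeightOneSpectrum (𝓞 K),
        MeasurableSpace (GL (Fin 2) (v.adicCompletion K)) := fun _ => borel _
    letI : MeasurableSpace (GL (Fin 2) ℂ) := borel _
    ∃ c : ℝ≥0, c ≠ 0 ∧
      Measure.map (upCoord340 U D.l) (D.R'.μ.restrict {y | OutT305 S' y})
        = c • ((Measure.pi fun v : U.Sin => (U.dI v).μ').prod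
            ((Measure.pi fun v : U.Ssp => Measure.pi fun _ : Fin D.l => L.μv v.1).prod
              (Measure.pi fun _ : InfinitePlace K => Measure.pi fun _ : Fin D.l => μc))) ∧
      D.R'.μ {y : G K' | (∀ w : HeightOneSpectrum (𝓞 K'), T6.InU (n w) (finGL305 w y)) ∧
          ∀ w' : InfinitePlace K', infGL305 w' y ∈ B₀}
        = (c : ℝ≥0∞) * ∏ _v : InfinitePlace K, ∏ _a : Fin D.l, μc B₀ := by
  letI : ∀ w : HeightOneSpectrum (𝓞 K'),
      MeasurableSpace (GL (Fin 2) (w.adicCompletion K')) := fun _ => borel _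
  letI : ∀ v : HeightOneSpectrum (𝓞 K),
      MeasurableSpace (GL (Fin 2) (v.adicCompletion K)) := fun _ => borel _
  letI : MeasurableSpace (GL (Fin 2) ℂ) := borel _
  haveI : ∀ w : HeightOneSpectrum (𝓞 K'), BorelSpace (GL (Fin 2) (w.adicCompletion K')) :=
    fun _ => ⟨rfl⟩
  haveI : ∀ v : HeightOneSpectrum (𝓞 K), BorelSpace (GL (Fin 2) (v.adicCompletion K)) :=
    fun _ => ⟨rfl⟩
  haveI : BorelSpace (GL (Fin 2) ℂ) := ⟨rfl⟩
  haveI : BorelSpace (G K') := ⟨rfl⟩
  haveI : LocallyCompactSpace (G K') := H11.LC.locallyCompactSpace_GL2_adeleRing_h11 K'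
  haveI : SigmaCompactSpace (G K') := H11.SC.sigmaCompactSpace_GL2_adeleRing_h11 K'
  haveI : ∀ w : HeightOneSpectrum (𝓞 K'),
      LocallyCompactSpace (GL (Fin 2) (w.adicCompletion K')) :=
    fun w => H11.LC.locallyCompactSpace_GL2_adicCompletion_h11 K' w
  haveI : ∀ v : HeightOneSpectrum (𝓞 K),
      LocallyCompactSpace (GL (Fin 2) (v.adicCompletion K)) :=
    fun v => H11.LC.locallyCompactSpace_GL2_adicCompletion_h11 K v
  haveI : ∀ w : HeightOneSpectrum (𝓞 K'),
      SecondCountableTopology (GL (Fin 2) (w.adicCompletion K')) := fun w => by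
    haveI := H11.SC.secondCountableTopology_adicCompletion_h11 K' w
    haveI := H11.SC.secondCountableTopology_matrix_h11 (Fin 2) (w.adicCompletion K')
    exact H11.SC.secondCountableTopology_units_h11 _
  haveI : ∀ v : HeightOneSpectrum (𝓞 K),
      SecondCountableTopology (GL (Fin 2) (v.adicCompletion K)) := fun v => by
    haveI := H11.SC.secondCountableTopology_adicCompletion_h11 K v
    haveI := H11.SC.secondCountableTopology_matrix_h11 (Fin 2) (v.adicCompletion K)
    exact H11.SC.secondCountableTopology_units_h11 _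
  haveI : LocallyCompactSpace (GL (Fin 2) ℂ) := T3.H57.locallyCompact_GL2C57
  haveI : SecondCountableTopology (GL (Fin 2) ℂ) := T3.H57.secondCountable_GL2C57
  haveI : D.R'.μ.IsHaarMeasure := hμ
  haveI : μc.IsHaarMeasure := hμc
  haveI : ∀ v : U.Sin, ((U.dI v).μ').IsHaarMeasure := fun v => (hU.inert v).haar.1
  haveI : ∀ v : U.Ssp, (L.μv v.1).IsHaarMeasure := fun v => (hL.haar v.1).1
  haveI b1 : ∀ v : U.Ssp, (Measure.pi fun _ : Fin D.l => L.μv v.1).IsHaarMeasure :=
    fun v => inferInstance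
  haveI b2 : (Measure.pi fun _ : Fin D.l => μc).IsHaarMeasure := inferInstance
  haveI b3 : ∀ v : U.Ssp, SigmaFinite (Measure.pi fun _ : Fin D.l => L.μv v.1) :=
    fun v => inferInstance
  haveI b4 : SigmaFinite (Measure.pi fun _ : Fin D.l => μc) := inferInstance
  haveI b5 : ∀ v : U.Ssp, MeasurableMul
      (Fin D.l → GL (Fin 2) ((v : HeightOneSpectrum (𝓞 K)).adicCompletion K)) :=
    fun v => inferInstance
  haveI b6 : MeasurableMul (Fin D.l → GL (Fin 2) ℂ) := inferInstance
  haveI a5 : (Measure.pi fun v : U.Sin => (U.dI v).μ').IsHaarMeasure := inferInstance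
  haveI a6 : (Measure.pi fun v : U.Ssp =>
      Measure.pi fun _ : Fin D.l => L.μv v.1).IsHaarMeasure := inferInstance
  haveI a7 : (Measure.pi fun _ : InfinitePlace K =>
      Measure.pi fun _ : Fin D.l => μc).IsHaarMeasure := inferInstance
  haveI a8 : SFinite (Measure.pi fun v : U.Sin => (U.dI v).μ') := inferInstance
  haveI a9 : SFinite (Measure.pi fun v : U.Ssp =>
      Measure.pi fun _ : Fin D.l => L.μv v.1) := inferInstance
  haveI a10 : SFinite (Measure.pi fun _ : InfinitePlace K =>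
      Measure.pi fun _ : Fin D.l => μc) := inferInstance
  haveI a11 : MeasurableMul (∀ v : U.Sin, GL (Fin 2) ((U.dI v).w.adicCompletion K')) :=
    inferInstance
  haveI a12 : MeasurableMul (∀ v : U.Ssp,
      Fin D.l → GL (Fin 2) ((v : HeightOneSpectrum (𝓞 K)).adicCompletion K)) := inferInstance
  haveI a13 : MeasurableMul (InfinitePlace K → Fin D.l → GL (Fin 2) ℂ) := inferInstance
  haveI a14 : ((Measure.pi fun v : U.Ssp => Measure.pi fun _ : Fin D.l => L.μv v.1).prod
      (Measure.pi fun _ : InfinitePlace K =>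
        Measure.pi fun _ : Fin D.l => μc)).IsHaarMeasure := inferInstance
  haveI a15 : SFinite ((Measure.pi fun v : U.Ssp => Measure.pi fun _ : Fin D.l => L.μv v.1).prod
      (Measure.pi fun _ : InfinitePlace K => Measure.pi fun _ : Fin D.l => μc)) := inferInstance
  haveI a16 : MeasurableMul ((∀ v : U.Ssp,
      Fin D.l → GL (Fin 2) ((v : HeightOneSpectrum (𝓞 K)).adicCompletion K)) ×
        (InfinitePlace K → Fin D.l → GL (Fin 2) ℂ)) := measurableMul_prod117
  obtain ⟨c, hc, hmap⟩ := haarPush117 (G := G K') (H := HU117 U D.l) D.R'.μ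
    ((Measure.pi fun v : U.Sin => (U.dI v).μ').prod
      ((Measure.pi fun v : U.Ssp => Measure.pi fun _ : Fin D.l => L.μv v.1).prod
        (Measure.pi fun _ : InfinitePlace K => Measure.pi fun _ : Fin D.l => μc)))
    (outSub117 S') (isOpen_outSub117 S') (upHom117 U D.l) (continuous_upHom117 U hU)
    (upHom_surj117 hK hS' U hU) {k : G K' | T1.IsStdCompact K' k}
    (T1.H793.isCompact_stdCompact793 K') (upKer_sub117 hS' U hU)
  have hmap' : Measure.map (upCoord340 U D.l) (D.R'.μ.restrict {y | OutT305 S' y})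
      = c • ((Measure.pi fun v : U.Sin => (U.dI v).μ').prod
          ((Measure.pi fun v : U.Ssp => Measure.pi fun _ : Fin D.l => L.μv v.1).prod
            (Measure.pi fun _ : InfinitePlace K => Measure.pi fun _ : Fin D.l => μc))) := hmap
  refine ⟨c, hc, hmap', ?_⟩
  have hB₀m : MeasurableSet B₀ := hB₀.isClosed.measurableSet
  have hconj : ∀ (v : InfinitePlace K) (a : ℕ) (z : GL (Fin 2) ℂ),
      Matrix.GeneralLinearGroup.map ((U.dA v).d a) z ∈ B₀ ↔ z ∈ B₀ := by
    intro v a z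
    rcases (hU.arch v).typ a with h | h
    · rw [h]
      have : Matrix.GeneralLinearGroup.map (RingHom.id ℂ) z = z := by
        apply Units.ext
        ext i j
        rfl
      rw [this]
    · rw [h]
      exact hB₀c z
  have hn0 : ∀ w : HeightOneSpectrum (𝓞 K'), w ∉ S' → n w = 0 := by
    intro w hw
    obtain ⟨v, hv⟩ := exists_under117 (K := K) w
    have hvS : v ∉ S := fun h => hw ((hS' w).2 ⟨v, h, hv⟩)
    exact hlev.2 v w (fun h => hvS (hS h)) hv
  set E : Set (HU117 U D.l) :=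
    (Set.pi univ fun v : U.Sin =>
      {g : GL (Fin 2) ((U.dI v).w.adicCompletion K') | T6.InU (n (U.dI v).w) g}) ×ˢ
      ((Set.pi univ fun v : U.Ssp => Set.pi univ fun _ : Fin D.l =>
        {g : GL (Fin 2) ((v : HeightOneSpectrum (𝓞 K)).adicCompletion K) | T6.InU (m v.1) g}) ×ˢ
        (Set.pi univ fun _ : InfinitePlace K => Set.pi univ fun _ : Fin D.l => B₀)) with hE
  have hEm : MeasurableSet E :=
    MeasurableSet.prod
      (MeasurableSet.univ_pi fun v => (isOpen_inU117 (U.dI v).w (n (U.dI v).w)).measurableSet)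
      (MeasurableSet.prod
        (MeasurableSet.univ_pi fun v => MeasurableSet.univ_pi fun _ =>
          (isOpen_inU117 v.1 (m v.1)).measurableSet)
        (MeasurableSet.univ_pi fun _ => MeasurableSet.univ_pi fun _ => hB₀m))
  have hcm : Measurable (upCoord340 U D.l) := (continuous_upHom117 U hU).measurable
  have h1 : Measure.map (upCoord340 U D.l) (D.R'.μ.restrict {y | OutT305 S' y}) E
      = D.R'.μ {y : G K' | (∀ w : HeightOneSpectrum (𝓞 K'), T6.InU (n w) (finGL305 w y)) ∧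
          ∀ w' : InfinitePlace K', infGL305 w' y ∈ B₀} := by
    rw [Measure.map_apply hcm hEm, Measure.restrict_apply (hcm hEm)]
    congr 1
    ext y
    constructor
    · rintro ⟨⟨h1, h2, h3⟩, h4⟩
      refine ⟨fun w => ?_, fun w' => ?_⟩
      · by_cases hw : w ∈ S'
        · obtain ⟨v, hvS, hvw⟩ := (hS' w).1 hw
          rcases (hU.union v).1 hvS with hv | hv
          · have h5 : w = (U.dI ⟨v, hv⟩).w := (hU.inert ⟨v, hv⟩).uniq w hvw
            rw [h5]
            exact h1 ⟨v, hv⟩ (mem_univ _)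
          · obtain ⟨a, ha, h5⟩ := (hU.split ⟨v, hv⟩).exh w hvw
            rw [h5, hnm ⟨v, hv⟩ a]
            have h6 := h2 ⟨v, hv⟩ (mem_univ _) ⟨a, ha⟩ (mem_univ _)
            exact (inU_map_iff117 _ (val_symm117 (hU.split ⟨v, hv⟩) a) (m v) _).1 h6
        · rw [hn0 w hw]
          exact (inU_zero_iff117 w y).2 (h4 w hw)
      · obtain ⟨a, ha, h5⟩ := (hU.arch (w'.comap (algebraMap K K'))).exh w' rfl
        have h6 := h3 (w'.comap (algebraMap K K')) (mem_univ _) ⟨a, ha⟩ (mem_univ _)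
        have h7 := (hconj _ a _).1 h6
        rw [h5]
        exact h7
    · rintro ⟨h1, h2⟩
      refine ⟨⟨fun v _ => h1 _, fun v _ a _ => ?_, fun v _ a _ => ?_⟩, fun w hw => ?_⟩
      · have h6 := h1 ((U.dS v).w a.1)
        rw [hnm v a.1] at h6
        exact (inU_map_iff117 _ (val_symm117 (hU.split v) a.1) (m v.1) _).2 h6
      · exact (hconj v a.1 _).2 (h2 _)
      · have h6 := h1 w
        rw [hn0 w hw] at h6
        exact (inU_zero_iff117 w y).1 h6
  have h2 : (c • ((Measure.pi fun v : U.Sin => (U.dI v).μ').prod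
      ((Measure.pi fun v : U.Ssp => Measure.pi fun _ : Fin D.l => L.μv v.1).prod
        (Measure.pi fun _ : InfinitePlace K => Measure.pi fun _ : Fin D.l => μc)))) E
      = (c : ℝ≥0∞) * ∏ _v : InfinitePlace K, ∏ _a : Fin D.l, μc B₀ := by
    rw [Measure.smul_apply, hE, Measure.prod_prod, Measure.prod_prod, Measure.pi_pi,
      Measure.pi_pi, Measure.pi_pi]
    have h5 : ∀ v : U.Sin, (U.dI v).μ' {g | T6.InU (n (U.dI v).w) g} = 1 :=
      fun v => (hU.inert v).haar.2
    have h6 : ∀ v : U.Ssp, (Measure.pi fun _ : Fin D.l => L.μv v.1)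
        (Set.pi univ fun _ : Fin D.l =>
          {g : GL (Fin 2) ((v : HeightOneSpectrum (𝓞 K)).adicCompletion K) |
            T6.InU (m v.1) g}) = 1 := by
      intro v
      rw [Measure.pi_pi]
      have := (hL.haar v.1).2
      simp only [this, Finset.prod_const_one]
    have h7 : (Measure.pi fun _ : Fin D.l => μc) (Set.pi univ fun _ : Fin D.l => B₀)
        = ∏ _a : Fin D.l, μc B₀ := Measure.pi_pi _ _
    simp only [h5, h6, h7, Finset.prod_const_one, one_mul]
    rfl
  rw [← h1, hmap', h2]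

/-- **LEAF UF.B1 = GRP-SPLIT**, VERBATIM and UNCONDITIONAL. -/
theorem grpSplitC117 (K K' : Type) [Field K] [NumberField K] [Field K'] [NumberField K']
    [Algebra K K'] : GrpSplitC340 K K' := by
  intro _hT6 D hD _hcyc _hl2 hK ι _hι μc hμc T₀ _hunr n m hlev
  classical
  haveI : LocallyCompactSpace (GL (Fin 2) ℂ) := T3.H57.locallyCompact_GL2C57
  obtain ⟨B₁, hB₁c, hB₁n⟩ := exists_compact_mem_nhds (1 : GL (Fin 2) ℂ)
  have hcc : Continuous (Matrix.GeneralLinearGroup.map (n := Fin 2) (starRingEnd ℂ)) :=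
    continuous_glMap117 _ Complex.continuous_conj
  have hzz : ∀ z : GL (Fin 2) ℂ, Matrix.GeneralLinearGroup.map (starRingEnd ℂ)
      (Matrix.GeneralLinearGroup.map (starRingEnd ℂ) z) = z :=
    fun z => glMap_cancel117 _ _ (fun x => Complex.conj_conj x) z
  set B₀ : Set (GL (Fin 2) ℂ) :=
    B₁ ∩ (Matrix.GeneralLinearGroup.map (n := Fin 2) (starRingEnd ℂ)) ⁻¹' B₁ with hB₀
  have hB₀c : IsCompact B₀ := hB₁c.inter_right (hB₁c.isClosed.preimage hcc)
  have hB₀n : B₀ ∈ 𝓝 (1 : GL (Fin 2) ℂ) := by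
    refine Filter.inter_mem hB₁n (hcc.continuousAt.preimage_mem_nhds ?_)
    rw [map_one]
    exact hB₁n
  have hB₀i : ∀ z : GL (Fin 2) ℂ,
      Matrix.GeneralLinearGroup.map (starRingEnd ℂ) z ∈ B₀ ↔ z ∈ B₀ := by
    intro z
    constructor
    · rintro ⟨h1, h2⟩
      have h3 : Matrix.GeneralLinearGroup.map (starRingEnd ℂ)
          (Matrix.GeneralLinearGroup.map (starRingEnd ℂ) z) ∈ B₁ := h2
      rw [hzz] at h3
      exact ⟨h3, h1⟩
    · rintro ⟨h1, h2⟩
      refine ⟨h2, ?_⟩
      show Matrix.GeneralLinearGroup.map (starRingEnd ℂ)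
          (Matrix.GeneralLinearGroup.map (starRingEnd ℂ) z) ∈ B₁
      rw [hzz]
      exact h1
  have hb0 : μc B₀ ≠ 0 := by
    letI : MeasurableSpace (GL (Fin 2) ℂ) := borel _
    haveI : μc.IsHaarMeasure := hμc
    exact (Measure.measure_pos_of_mem_nhds μc hB₀n).ne'
  have hbt : μc B₀ ≠ ∞ := by
    letI : MeasurableSpace (GL (Fin 2) ℂ) := borel _
    haveI : μc.IsHaarMeasure := hμc
    exact hB₀c.measure_lt_top.ne
  have hβ0 : (∏ _v : InfinitePlace K, ∏ _a : Fin D.l, μc B₀) ≠ 0 :=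
    Finset.prod_ne_zero_iff.2 (fun _ _ => Finset.prod_ne_zero_iff.2 (fun _ _ => hb0))
  have hβt : (∏ _v : InfinitePlace K, ∏ _a : Fin D.l, μc B₀) ≠ ∞ :=
    ENNReal.prod_ne_top (fun _ _ => ENNReal.prod_ne_top (fun _ _ => hbt))
  by_cases hex : ∃ (S : Finset (HeightOneSpectrum (𝓞 K)))
      (S' : Finset (HeightOneSpectrum (𝓞 K'))) (δ : GL (Fin 2) K') (γ : GL (Fin 2) K)
      (L : LocData305 K γ) (U : UpDat340 K δ), T₀ ⊆ S ∧ IsOver305 S S' ∧ IsLocData305 m L ∧
        IsUpDat340 D ι n L S U ∧ ∀ (v : U.Ssp) (a : ℕ), n ((U.dS v).w a) = m v.1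
  · obtain ⟨S₀, S₀', δ₀, γ₀, L₀, U₀, hS₀, hS₀', hL₀, hU₀, hnm₀⟩ := hex
    obtain ⟨c₀, hc₀, -, hW₀⟩ := grpSplit_eval117 hK D hD.frame'.frame.haar ι μc hμc T₀ n m hlev
      B₀ hB₀c hB₀i S₀ S₀' hS₀ hS₀' δ₀ γ₀ L₀ hL₀ U₀ hU₀ hnm₀
    refine ⟨(c₀ : ℝ), NNReal.coe_pos.2 (pos_iff_ne_zero.2 hc₀),
      fun S S' hS hS' δ γ L hL U hU hnm => ?_⟩
    obtain ⟨c, hc, hmap, hWc⟩ := grpSplit_eval117 hK D hD.frame'.frame.haar ι μc hμc T₀ n m
      hlev B₀ hB₀c hB₀i S S' hS hS' δ γ L hL U hU hnm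
    have hcc' : c = c₀ := by
      have h3 : (c : ℝ≥0∞) * ∏ _v : InfinitePlace K, ∏ _a : Fin D.l, μc B₀
          = (c₀ : ℝ≥0∞) * ∏ _v : InfinitePlace K, ∏ _a : Fin D.l, μc B₀ := hWc.symm.trans hW₀
      have h4 := (ENNReal.mul_left_inj hβ0 hβt).1 h3
      exact_mod_cast h4
    rw [hmap, hcc', ENNReal.ofReal_coe_nnreal]
    rfl
  · exact ⟨1, one_pos, fun S S' hS hS' δ γ L hL U hU hnm =>
      absurd ⟨S, S', δ, γ, L, U, hS, hS', hL, hU, hnm⟩ hex⟩

end Fermat.Agent.LT.T7.H117

end
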